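/-
Programme T1B (row 38 via S44), sub-cell TORIC50, brick GAL-INPUT (helper65), abstract part
(Mathlib only).

A group `G` acts on a field `Ω` by ring automorphisms (`act : G →* (Ω ≃+* Ω)`); `O ⊂ Ω` is a subring
stable under `G`, and a `W`-algebra such that `G` fixes the image of `W`.  Then

* `rho act O hO hfix : G →* (↥O ≃ₐ[W] ↥O)`, `coe_rho : ((rho … s x : O) : Ω) = act s x`;
* `rho_inclusion` : compatibility with an inclusion `O ≤ O'` of two such subrings;
* `rho_pow_of_pow` : if `act s ζ = ζ ^ a` in `Ω` then `rho s ζ = ζ ^ a` in `O`.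
-/
import Mathlib

set_option autoImplicit false

namespace Fermat.Agent.T1B.GalInput65

universe u v w

variable {Ω : Type u} [Field Ω] {G : Type v} [Group G] (act : G →* (Ω ≃+* Ω))
  {W : Type w} [CommRing W]

section One

variable (O : Subring Ω) [Algebra W ↥O]
  (hO : ∀ (s : G) (x : Ω), x ∈ O → act s x ∈ O)
  (hfix : ∀ (s : G) (w : W), act s ((algebraMap W ↥O w : ↥O) : Ω) = ((algebraMap W ↥O w : ↥O) : Ω))

/-- The restriction of `act s` to the stable subring `O`, as a `W`-algebra automorphism. -/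
def rhoEquiv (s : G) : ↥O ≃ₐ[W] ↥O where
  toFun x := ⟨act s x, hO s x x.2⟩
  invFun x := ⟨act s⁻¹ x, hO s⁻¹ x x.2⟩
  left_inv x := Subtype.ext (by
    show (act s⁻¹ * act s) (x : Ω) = x
    rw [← map_mul, inv_mul_cancel, map_one]; rfl)
  right_inv x := Subtype.ext (by
    show (act s * act s⁻¹) (x : Ω) = x
    rw [← map_mul, mul_inv_cancel, map_one]; rfl)
  map_mul' x y := Subtype.ext (by
    show act s ((x * y : ↥O) : Ω) = act s x * act s y
    rw [Subring.coe_mul, map_mul])
  map_add' x y := Subtype.ext (by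
    show act s ((x + y : ↥O) : Ω) = act s x + act s y
    rw [Subring.coe_add, map_add])
  commutes' w := Subtype.ext (hfix s w)

@[simp] theorem coe_rhoEquiv (s : G) (x : ↥O) :
    ((rhoEquiv act O hO hfix s x : ↥O) : Ω) = act s x := rfl

/-- **The action of `G` on the stable subring `O` by `W`-algebra automorphisms.** -/
def rho : G →* (↥O ≃ₐ[W] ↥O) where
  toFun := rhoEquiv act O hO hfix
  map_one' := AlgEquiv.ext fun x => Subtype.ext (by
    rw [coe_rhoEquiv, map_one]; rfl)
  map_mul' s t := AlgEquiv.ext fun x => Subtype.ext (by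
    rw [coe_rhoEquiv, map_mul]; rfl)

@[simp] theorem coe_rho (s : G) (x : ↥O) : ((rho act O hO hfix s x : ↥O) : Ω) = act s x := rfl

/-- If `act s ζ = ζ ^ a` in `Ω`, the same holds in `O`. -/
theorem rho_pow_of_pow (s : G) (ζ : ↥O) (a : ℕ) (h : act s (ζ : Ω) = (ζ : Ω) ^ a) :
    rho act O hO hfix s ζ = ζ ^ a :=
  Subtype.ext (by rw [coe_rho, h, SubmonoidClass.coe_pow])

end One

section Two

variable (O O' : Subring Ω) [Algebra W ↥O] [Algebra W ↥O']
  (hO : ∀ (s : G) (x : Ω), x ∈ O → act s x ∈ O)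
  (hfix : ∀ (s : G) (w : W), act s ((algebraMap W ↥O w : ↥O) : Ω) = ((algebraMap W ↥O w : ↥O) : Ω))
  (hO' : ∀ (s : G) (x : Ω), x ∈ O' → act s x ∈ O')
  (hfix' : ∀ (s : G) (w : W),
    act s ((algebraMap W ↥O' w : ↥O') : Ω) = ((algebraMap W ↥O' w : ↥O') : Ω))

/-- **Compatibility with an inclusion of stable subrings.** -/
theorem rho_inclusion (h : O ≤ O') (s : G) (x : ↥O) :
    rho act O' hO' hfix' s (Subring.inclusion h x) = Subring.inclusion h (rho act O hO hfix s x) :=
  Subtype.ext rfl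

/-- The same for an arbitrary ring map `O → O'` compatible with the inclusions into `Ω`. -/
theorem rho_map (f : ↥O →+* ↥O') (hf : ∀ x : ↥O, ((f x : ↥O') : Ω) = (x : Ω)) (s : G) (x : ↥O) :
    rho act O' hO' hfix' s (f x) = f (rho act O hO hfix s x) :=
  Subtype.ext (by rw [coe_rho, hf, hf, coe_rho])

end Two

end Fermat.Agent.T1B.GalInput65
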