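/-
Programme T1B (row 38 via S44), sub-cell TORIC50, brick GAL-INPUT (helper65), concrete part:
THE GALOIS INPUTS OF `Toric50.Final.towerInput` ON THE REAL RINGS.

`E : IntermediateField ℚ_[p] (Kbar p)` stable under the local inertia group `I_p = Plumb66.Inertia.Ip p`
(e.g. `E` normal), `O_E = TW.B5.Iface.intSubring p E`, `W` any commutative ring with a `W`-algebra
structure on `O_E` whose image is fixed by inertia (`hfix`; for `W = AK (padicPlace p) K`, `K` an
inertial number field, this is `fix_of_inertFixed`).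

* `actIp p : ↥(Ip p) →* (Kbar p ≃+* Kbar p)`;
* `StableE p E`, `stableE_of_normal`, `mem_intSubring_of_stable`;
* (i)   `rhoE p E hE hfix : ↥(Ip p) →* (↥O_E ≃ₐ[W] ↥O_E)`, `coe_rhoE`;
* (ii)  `rhoE_muP : ζ ^ p = 1 → rhoE … s ζ = ζ ^ Cyclo.chiNat p ↑s`  (the field `hχ` of `towerInput`);
* (iii) `rhoE_incl` (compatibility with `O_E ⊂ O_E'`), and the one-units:
  `mem_maximalIdeal_iff : x ∈ 𝔪_E ↔ ‖x‖ < 1`, `eOne p E : unitsOne 𝔪_E →* ↥(OneUnits.oneUnits p)`,
  `coe_eOne`, `eOne_injective`, `eOne_map` (compatibility with `O_E → O_E'`), `eOne_smul`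
  (equivariance for the action `ToricGal65.onesMapO (rhoE …)`), `exists_eOne_eq` (a one-unit of `Kbar p`
  lying in `E` comes from `1 + 𝔪_E`); the `r`-fold versions `eT`, `eT_injective`, `eT_map`, `eT_smul`,
  `exists_eT_eq`; `exists_level` : every finite family of elements of `Kbar p` lies in a finite normal
  `E' ⊇ E₀`;
* `fix_of_inertFixed` : the hypothesis `hfix` when `W → O_E` is `padicEmbedding p ∘ j`, `j : W → ℚ̄` with
  image fixed by the global inertia group `I_A`; `algebraMap_mem_maximalIdeal` (the hypothesis `hO`).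
-/
import Mathlib
import Fermat.Agent.T1.IntSub47
import Fermat.Agent.TW.B5.FixedField47
import Fermat.Agent.T1B.Plumb66.OneUnits
import Fermat.Agent.T1B.ToricGal65.Inst
import Fermat.Agent.T1B.GalInput65.Abs

set_option autoImplicit false
set_option linter.unusedSectionVars false
set_option linter.overlappingInstances false
set_option linter.style.haveILetI false

noncomputable section

namespace Fermat.Agent.T1B.GalInput65

open Fermat.Agent.TW.B5.Iface Fermat.Agent.T1.LocModel46 Fermat.Agent.T1B.Plumb66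
  Fermat.Agent.T1.CechFormal70 Fermat.Agent.T1B.Toric11 Fermat.Agent.T1B.ToricGal65

variable (p : ℕ) [Fact p.Prime]

/-! ### Inertia acting on `Kbar p` -/

/-- The action of the local inertia group on `Kbar p` by ring automorphisms. -/
def actIp : ↥(Inertia.Ip p) →* (Kbar p ≃+* Kbar p) where
  toFun s := ((s : Gp p) : Kbar p ≃+* Kbar p)
  map_one' := RingEquiv.ext fun _ => rfl
  map_mul' _ _ := RingEquiv.ext fun _ => rfl

@[simp] theorem actIp_apply (s : ↥(Inertia.Ip p)) (x : Kbar p) : actIp p s x = (s : Gp p) x := rfl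

/-- `E` is stable under the inertia group. -/
def StableE (E : IntermediateField ℚ_[p] (Kbar p)) : Prop :=
  ∀ τ : Gp p, τ ∈ Inertia.Ip p → ∀ x ∈ E, τ x ∈ E

theorem stableE_of_forall {E : IntermediateField ℚ_[p] (Kbar p)}
    (h : ∀ τ : Gp p, ∀ x ∈ E, τ x ∈ E) : StableE p E := fun τ _ x hx => h τ x hx

theorem stableE_of_normal (E : IntermediateField ℚ_[p] (Kbar p)) [Normal ℚ_[p] E] : StableE p E := by
  intro τ _ x hx
  have h := (IntermediateField.normal_iff_forall_map_le' (K := E)).1 inferInstance τ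
  exact h ⟨x, hx, rfl⟩

variable {p}

theorem mem_intSubring_of_stable {E : IntermediateField ℚ_[p] (Kbar p)} (hE : StableE p E)
    (s : ↥(Inertia.Ip p)) (x : Kbar p) (hx : x ∈ intSubring p E) : actIp p s x ∈ intSubring p E :=
  ⟨hE s s.2 x hx.1, by rw [actIp_apply, norm_gal]; exact hx.2⟩

/-! ### (i) The representation `ρ_E` -/

section Rho

variable {W : Type*} [CommRing W] (E : IntermediateField ℚ_[p] (Kbar p))
  [Algebra W ↥(intSubring p E)] (hE : StableE p E)
  (hfix : ∀ (s : ↥(Inertia.Ip p)) (w : W),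
    actIp p s ((algebraMap W ↥(intSubring p E) w : ↥(intSubring p E)) : Kbar p) =
      ((algebraMap W ↥(intSubring p E) w : ↥(intSubring p E)) : Kbar p))

variable (p) in
/-- **(i) Inertia acting on `O_E` by `W`-algebra automorphisms.** -/
def rhoE : ↥(Inertia.Ip p) →* (↥(intSubring p E) ≃ₐ[W] ↥(intSubring p E)) :=
  rho (actIp p) (intSubring p E) (mem_intSubring_of_stable hE) hfix

@[simp] theorem coe_rhoE (s : ↥(Inertia.Ip p)) (x : ↥(intSubring p E)) :
    ((rhoE p E hE hfix s x : ↥(intSubring p E)) : Kbar p) = (s : Gp p) (x : Kbar p) := rfl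

/-- **(ii) Inertia acts on `μ_p(O_E)` through the mod `p` cyclotomic character**: the hypothesis `hχ`
of `Toric50.Final.towerInput` with `χ s := Cyclo.chiNat p ↑s`. -/
theorem rhoE_muP (s : ↥(Inertia.Ip p)) (ζ : ↥(intSubring p E)) (hζ : ζ ^ p = 1) :
    rhoE p E hE hfix s ζ = ζ ^ Cyclo.chiNat p (s : Gp p) := by
  apply rho_pow_of_pow
  have h1 : ((ζ : ↥(intSubring p E)) : Kbar p) ^ p = 1 := by
    have := congrArg (fun z : ↥(intSubring p E) => (z : Kbar p)) hζ
    simpa using this
  exact Cyclo.actsOnMuP p (s : Gp p) _ h1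

end Rho

/-! ### (iii) Compatibility with `O_E ⊂ O_E'` -/

section Incl

variable {W : Type*} [CommRing W] (E E' : IntermediateField ℚ_[p] (Kbar p))
  [Algebra W ↥(intSubring p E)] [Algebra W ↥(intSubring p E')]
  (hE : StableE p E) (hE' : StableE p E')
  (hfix : ∀ (s : ↥(Inertia.Ip p)) (w : W),
    actIp p s ((algebraMap W ↥(intSubring p E) w : ↥(intSubring p E)) : Kbar p) =
      ((algebraMap W ↥(intSubring p E) w : ↥(intSubring p E)) : Kbar p))
  (hfix' : ∀ (s : ↥(Inertia.Ip p)) (w : W),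
    actIp p s ((algebraMap W ↥(intSubring p E') w : ↥(intSubring p E')) : Kbar p) =
      ((algebraMap W ↥(intSubring p E') w : ↥(intSubring p E')) : Kbar p))

/-- `ρ_E'` restricts to `ρ_E` along the inclusion `O_E → O_E'`. -/
theorem rhoE_incl (h : E ≤ E') (s : ↥(Inertia.Ip p)) (x : ↥(intSubring p E)) :
    rhoE p E' hE' hfix' s (Fermat.Agent.T1.IntSub47.incl p h x) =
      Fermat.Agent.T1.IntSub47.incl p h (rhoE p E hE hfix s x) :=
  Subtype.ext rfl

/-- The same for any ring map `O_E → O_E'` compatible with the inclusions into `Kbar p`. -/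
theorem rhoE_map (f : ↥(intSubring p E) →+* ↥(intSubring p E'))
    (hf : ∀ x : ↥(intSubring p E), ((f x : ↥(intSubring p E')) : Kbar p) = (x : Kbar p))
    (s : ↥(Inertia.Ip p)) (x : ↥(intSubring p E)) :
    rhoE p E' hE' hfix' s (f x) = f (rhoE p E hE hfix s x) :=
  Subtype.ext (by rw [coe_rhoE, hf, hf, coe_rhoE])

end Incl

/-! ### The maximal ideal of `O_E` and the one-units -/

section Ones

variable (E : IntermediateField ℚ_[p] (Kbar p)) [IsLocalRing ↥(intSubring p E)]

theorem isUnit_iff_norm_eq_one (x : ↥(intSubring p E)) : IsUnit x ↔ ‖(x : Kbar p)‖ = 1 := by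
  constructor
  · rintro ⟨u, rfl⟩
    have h1 : ((u : ↥(intSubring p E)) : Kbar p) *
        (((u⁻¹ : (↥(intSubring p E))ˣ) : ↥(intSubring p E)) : Kbar p) = 1 := by
      rw [← Subring.coe_mul, Units.mul_inv, Subring.coe_one]
    have h2 : ‖((u : ↥(intSubring p E)) : Kbar p)‖ *
        ‖(((u⁻¹ : (↥(intSubring p E))ˣ) : ↥(intSubring p E)) : Kbar p)‖ = 1 := by
      rw [← norm_mul, h1, norm_one]
    have h3 : ‖((u : ↥(intSubring p E)) : Kbar p)‖ ≤ 1 := (u : ↥(intSubring p E)).2.2
    have h4 : ‖(((u⁻¹ : (↥(intSubring p E))ˣ) : ↥(intSubring p E)) : Kbar p)‖ ≤ 1 :=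
      ((u⁻¹ : (↥(intSubring p E))ˣ) : ↥(intSubring p E)).2.2
    have h5 := norm_nonneg ((u : ↥(intSubring p E)) : Kbar p)
    have h6 := norm_nonneg (((u⁻¹ : (↥(intSubring p E))ˣ) : ↥(intSubring p E)) : Kbar p)
    nlinarith
  · intro h
    have hx0 : (x : Kbar p) ≠ 0 := by
      intro h0
      rw [h0, norm_zero] at h
      exact zero_ne_one h
    have hinv : (x : Kbar p)⁻¹ ∈ intSubring p E :=
      ⟨E.inv_mem x.2.1, by rw [norm_inv, h, inv_one]⟩
    exact IsUnit.of_mul_eq_one (⟨(x : Kbar p)⁻¹, hinv⟩ : ↥(intSubring p E))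
      (Subtype.ext (mul_inv_cancel₀ hx0))

/-- **The maximal ideal of `O_E` is `{‖x‖ < 1}`.** -/
theorem mem_maximalIdeal_iff (x : ↥(intSubring p E)) :
    x ∈ IsLocalRing.maximalIdeal ↥(intSubring p E) ↔ ‖(x : Kbar p)‖ < 1 := by
  rw [IsLocalRing.mem_maximalIdeal, mem_nonunits_iff, isUnit_iff_norm_eq_one]
  have hx : ‖(x : Kbar p)‖ ≤ 1 := x.2.2
  constructor
  · intro h
    exact lt_of_le_of_ne hx h
  · intro h
    exact ne_of_lt h

variable (p) in
/-- **`1 + 𝔪_E → 1 + 𝔪_{ℚ̄_p}`.** -/
def eOne : unitsOne (IsLocalRing.maximalIdeal ↥(intSubring p E)) →* ↥(OneUnits.oneUnits p) where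
  toFun u := ⟨Units.map ((intSubring p E).subtype : ↥(intSubring p E) →* Kbar p)
      (u : (↥(intSubring p E))ˣ), by
    rw [OneUnits.mem_oneUnits]
    have h1 : ((u : (↥(intSubring p E))ˣ) : ↥(intSubring p E)) - 1 ∈
        IsLocalRing.maximalIdeal ↥(intSubring p E) := u.2
    rw [mem_maximalIdeal_iff] at h1
    simpa using h1⟩
  map_one' := Subtype.ext (Units.ext rfl)
  map_mul' _ _ := Subtype.ext (Units.ext rfl)

@[simp] theorem coe_eOne (u : unitsOne (IsLocalRing.maximalIdeal ↥(intSubring p E))) :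
    (((eOne p E u : ↥(OneUnits.oneUnits p)) : (Kbar p)ˣ) : Kbar p) =
      (((u : (↥(intSubring p E))ˣ) : ↥(intSubring p E)) : Kbar p) := rfl

theorem eOne_injective : Function.Injective (eOne p E) := by
  intro u v h
  apply Subtype.ext
  apply Units.ext
  apply Subtype.ext
  have := congrArg (fun z : ↥(OneUnits.oneUnits p) => ((z : (Kbar p)ˣ) : Kbar p)) h
  simpa using this

/-- A one-unit of `Kbar p` lying in `E` comes from `1 + 𝔪_E`. -/
theorem exists_eOne_eq (z : ↥(OneUnits.oneUnits p)) (hz : ((z : (Kbar p)ˣ) : Kbar p) ∈ E) :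
    ∃ u : unitsOne (IsLocalRing.maximalIdeal ↥(intSubring p E)), eOne p E u = z := by
  have hn : ‖((z : (Kbar p)ˣ) : Kbar p)‖ = 1 :=
    Fermat.Agent.T1.H1U45.norm_eq_one_of_oneUnit p z.2
  let x : ↥(intSubring p E) := ⟨((z : (Kbar p)ˣ) : Kbar p), hz, le_of_eq hn⟩
  have hu : IsUnit x := (isUnit_iff_norm_eq_one E x).2 hn
  refine ⟨⟨hu.unit, ?_⟩, ?_⟩
  · rw [mem_unitsOne, IsUnit.unit_spec, mem_maximalIdeal_iff]
    have := OneUnits.norm_sub_one p z
    simpa [x] using this
  · apply Subtype.ext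
    apply Units.ext
    rfl

end Ones

section OnesMap

variable (E E' : IntermediateField ℚ_[p] (Kbar p)) [IsLocalRing ↥(intSubring p E)]
  [IsLocalRing ↥(intSubring p E')]

/-- A ring map `O_E → O_E'` compatible with the inclusions into `Kbar p` is local. -/
theorem maximalIdeal_le_comap_of_coe (f : ↥(intSubring p E) →+* ↥(intSubring p E'))
    (hf : ∀ x : ↥(intSubring p E), ((f x : ↥(intSubring p E')) : Kbar p) = (x : Kbar p)) :
    IsLocalRing.maximalIdeal ↥(intSubring p E) ≤
      (IsLocalRing.maximalIdeal ↥(intSubring p E')).comap f := by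
  intro x hx
  rw [Ideal.mem_comap, mem_maximalIdeal_iff, hf]
  exact (mem_maximalIdeal_iff E x).1 hx

theorem isLocalHom_of_coe (f : ↥(intSubring p E) →+* ↥(intSubring p E'))
    (hf : ∀ x : ↥(intSubring p E), ((f x : ↥(intSubring p E')) : Kbar p) = (x : Kbar p)) :
    IsLocalHom f := by
  refine ⟨fun x hx => ?_⟩
  rw [isUnit_iff_norm_eq_one] at hx ⊢
  rw [← hf]
  exact hx

/-- **`eOne` is compatible with enlarging `E`.** -/
theorem eOne_map (f : ↥(intSubring p E) →+* ↥(intSubring p E'))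
    (hf : ∀ x : ↥(intSubring p E), ((f x : ↥(intSubring p E')) : Kbar p) = (x : Kbar p))
    (hle : IsLocalRing.maximalIdeal ↥(intSubring p E) ≤
      (IsLocalRing.maximalIdeal ↥(intSubring p E')).comap f)
    (u : unitsOne (IsLocalRing.maximalIdeal ↥(intSubring p E))) :
    eOne p E' (unitsOneMap f hle u) = eOne p E u := by
  apply Subtype.ext
  apply Units.ext
  rw [coe_eOne, coe_unitsOneMap, hf, coe_eOne]

end OnesMap

/-! ### Equivariance of `eOne` -/

section Smul

variable {W : Type} [CommRing W] (E : IntermediateField ℚ_[p] (Kbar p))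
  [IsDomain ↥(intSubring p E)] [IsDiscreteValuationRing ↥(intSubring p E)]
  [Algebra W ↥(intSubring p E)] (hE : StableE p E)
  (hfix : ∀ (s : ↥(Inertia.Ip p)) (w : W),
    actIp p s ((algebraMap W ↥(intSubring p E) w : ↥(intSubring p E)) : Kbar p) =
      ((algebraMap W ↥(intSubring p E) w : ↥(intSubring p E)) : Kbar p))

/-- **`eOne` is inertia-equivariant** (action on `1 + 𝔪_E` = `ToricGal65.onesMapO (rhoE …)`, i.e. the
action `ToricGal65.onesActO`; action on `1 + 𝔪_{ℚ̄_p}` = the one of `Plumb66.OneUnits`). -/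
theorem eOne_smul (s : ↥(Inertia.Ip p))
    (u : unitsOne (IsLocalRing.maximalIdeal ↥(intSubring p E))) :
    eOne p E (onesMapO (rhoE p E hE hfix) s u) = (s : Gp p) • eOne p E u := by
  apply Subtype.ext
  apply Units.ext
  rw [coe_eOne, coe_onesMapO, coe_rhoE, OneUnits.coe_smul, coe_eOne]

end Smul

/-! ### The `r`-fold versions -/

section Pi

variable (E : IntermediateField ℚ_[p] (Kbar p)) [IsLocalRing ↥(intSubring p E)] (r : ℕ)

variable (p) in
/-- **`(1 + 𝔪_E)^r → (1 + 𝔪_{ℚ̄_p})^r`**: the maps `e L` of `Union81.UnionData`. -/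
def eT : Tinf r (IsLocalRing.maximalIdeal ↥(intSubring p E)) →* (Fin r → ↥(OneUnits.oneUnits p)) :=
  (eOne p E).compLeft (Fin r)

@[simp] theorem eT_apply (w : Tinf r (IsLocalRing.maximalIdeal ↥(intSubring p E))) (i : Fin r) :
    eT p E r w i = eOne p E (w i) := rfl

theorem eT_injective : Function.Injective (eT p E r) := by
  intro w w' h
  funext i
  exact eOne_injective E (congrFun h i)

/-- A family of one-units of `Kbar p` lying in `E` comes from `(1 + 𝔪_E)^r`. -/
theorem exists_eT_eq (z : Fin r → ↥(OneUnits.oneUnits p))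
    (hz : ∀ i, (((z i : ↥(OneUnits.oneUnits p)) : (Kbar p)ˣ) : Kbar p) ∈ E) :
    ∃ w : Tinf r (IsLocalRing.maximalIdeal ↥(intSubring p E)), eT p E r w = z := by
  choose w hw using fun i => exists_eOne_eq E (z i) (hz i)
  exact ⟨w, funext hw⟩

end Pi

section PiMap

variable (E E' : IntermediateField ℚ_[p] (Kbar p)) [IsLocalRing ↥(intSubring p E)]
  [IsLocalRing ↥(intSubring p E')] (r : ℕ)

/-- **`eT` is compatible with enlarging `E`** (`(unitsOneMap f hle).compLeft (Fin r)` is
`ToricGal65.tinfMap` / `Union81.TinfMap`). -/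
theorem eT_map (f : ↥(intSubring p E) →+* ↥(intSubring p E'))
    (hf : ∀ x : ↥(intSubring p E), ((f x : ↥(intSubring p E')) : Kbar p) = (x : Kbar p))
    (hle : IsLocalRing.maximalIdeal ↥(intSubring p E) ≤
      (IsLocalRing.maximalIdeal ↥(intSubring p E')).comap f)
    (w : Tinf r (IsLocalRing.maximalIdeal ↥(intSubring p E))) :
    eT p E' r ((unitsOneMap f hle).compLeft (Fin r) w) = eT p E r w := by
  funext i
  exact eOne_map E E' f hf hle (w i)

end PiMap

section PiSmul

variable {W : Type} [CommRing W] (E : IntermediateField ℚ_[p] (Kbar p))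
  [IsDomain ↥(intSubring p E)] [IsDiscreteValuationRing ↥(intSubring p E)]
  [Algebra W ↥(intSubring p E)] (hE : StableE p E)
  (hfix : ∀ (s : ↥(Inertia.Ip p)) (w : W),
    actIp p s ((algebraMap W ↥(intSubring p E) w : ↥(intSubring p E)) : Kbar p) =
      ((algebraMap W ↥(intSubring p E) w : ↥(intSubring p E)) : Kbar p))
  (r : ℕ)

/-- **`eT` is inertia-equivariant** for the action `ToricGal65.actTinf (rhoE …) r` on `(1 + 𝔪_E)^r`:
the hypothesis `e_smul` of `Union81.UnionData.ιT_smul`. -/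
theorem eT_smul (s : ↥(Inertia.Ip p))
    (w : Tinf r (IsLocalRing.maximalIdeal ↥(intSubring p E))) :
    letI := actTinf (rhoE p E hE hfix) r
    eT p E r (s • w) = fun k => (s : Gp p) • eT p E r w k := by
  letI := actTinf (rhoE p E hE hfix) r
  funext k
  rw [eT_apply, actTinf_smul_apply, eOne_smul, eT_apply]

end PiSmul

/-! ### The base ring `W → O_E` through `ℚ̄` -/

section Base

variable {W : Type*} [CommRing W] (E : IntermediateField ℚ_[p] (Kbar p))
  [Algebra W ↥(intSubring p E)] (j : W → AlgebraicClosure ℚ)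
  (hcoe : ∀ w : W, ((algebraMap W ↥(intSubring p E) w : ↥(intSubring p E)) : Kbar p) =
    padicEmbedding p (j w))

include hcoe

/-- **The hypothesis `hfix` for a base ring inside an inertially fixed field**: if `W` maps to `O_E`
through `j : W → ℚ̄` followed by `padicEmbedding p`, and the global inertia group `I_A` of the
canonical place fixes `j w` (e.g. `W = AK (padicPlace p) K`, `K` inertial:
`ES.P36.InertField27.IsInertial.1`), then the local inertia group fixes the image of `W`. -/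
theorem fix_of_inertFixed (hj : ∀ τ ∈ Inertia.IA p, ∀ w : W, τ (j w) = j w)
    (s : ↥(Inertia.Ip p)) (w : W) :
    actIp p s ((algebraMap W ↥(intSubring p E) w : ↥(intSubring p E)) : Kbar p) =
      ((algebraMap W ↥(intSubring p E) w : ↥(intSubring p E)) : Kbar p) := by
  rw [actIp_apply, hcoe, ← iota_res, hj _ ((Inertia.mem_Ip_iff_res p).1 s.2)]

/-- The hypothesis `hO` of `Toric50.Final.towerInput`: an element of the maximal ideal of the place
maps into `𝔪_E`. -/
theorem algebraMap_mem_maximalIdeal [IsLocalRing ↥(intSubring p E)] (π : W)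
    (hπ : (padicPlace p).valuation (j π) < 1) :
    algebraMap W ↥(intSubring p E) π ∈ IsLocalRing.maximalIdeal ↥(intSubring p E) := by
  rw [mem_maximalIdeal_iff, hcoe]
  exact (valuation_lt_one_iff p).1 hπ

end Base

/-! ### Levels -/

open Fermat.Agent.TW.B5.IfaceLG in
/-- **Every finite family of elements of `Kbar p` lies in a finite normal extension of any given
finite `E₀`.** -/
theorem exists_level (E₀ : IntermediateField ℚ_[p] (Kbar p)) [FiniteDimensional ℚ_[p] E₀]
    {ι : Type*} [Finite ι] (z : ι → Kbar p) :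
    ∃ E' : IntermediateField ℚ_[p] (Kbar p), E₀ ≤ E' ∧ FiniteDimensional ℚ_[p] E' ∧
      IsNormalField p E' ∧ ∀ i, z i ∈ E' := by
  classical
  have hfin : FiniteDimensional ℚ_[p] (IntermediateField.adjoin ℚ_[p] (Set.range z)) :=
    IntermediateField.finiteDimensional_adjoin (fun x _ =>
      ((PadicAlgCl.isAlgebraic p).isAlgebraic x).isIntegral)
  have hfin1 : FiniteDimensional ℚ_[p]
      ↥(E₀ ⊔ IntermediateField.adjoin ℚ_[p] (Set.range z)) :=
    IntermediateField.finiteDimensional_sup _ _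
  obtain ⟨E', hle, hE'fin, hE'n⟩ :=
    Fermat.Agent.TW.B5.FixedField47.exists_normal_finite_ge (p := p)
      (E₀ ⊔ IntermediateField.adjoin ℚ_[p] (Set.range z))
  refine ⟨E', le_trans le_sup_left hle, hE'fin, hE'n, fun i => hle ?_⟩
  exact (le_sup_right : IntermediateField.adjoin ℚ_[p] (Set.range z) ≤ _)
    (IntermediateField.subset_adjoin _ _ ⟨i, rfl⟩)

end Fermat.Agent.T1B.GalInput65
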