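/-
Programme T1B (row 38 via S44), sub-cell TORIC50, brick GAL-INPUT (helper65), part 3:
THE CONCRETE LEVEL FAMILY for `Union81/Family.lean`.

Parameters (so that any choice of "local base" plugs in): a commutative ring `W` (`Type`) with a
`W`-algebra structure on `Kbar p`, a finite extension `E₀` of `ℚ_p` in `Kbar p` (the completion of the
inertial number field `K`) with `hW : ∀ w, algebraMap W (Kbar p) w ∈ intSubring p E₀`, and
`hdvr : ∀ E finite, IsDiscreteValuationRing ↥(intSubring p E)`.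

* `LevelSys p W Λ` : a system of levels indexed by a preorder `Λ` (`fld`, `mono`, `fin`, `stable`,
  `memW`, `exists_ge`); `S.O L = ↥(intSubring p (S.fld L))`, `S.alg L : Algebra W (S.O L)` (reducible
  def, `codRestrict` of `algebraMap W (Kbar p)`), `S.toΩ L`, `S.tr h`;
* `S.levelFamily hdvr : Union81.LevelFamily W (Kbar p) Λ`;
* `S.unitsFamily hdvr : Union81.UnitsFamily (S.levelFamily hdvr) (Plumb66.OneUnits.oneUnits p)`;
* inertia (`hfixΩ : ∀ τ ∈ Ip p, ∀ w, τ (algebraMap W (Kbar p) w) = algebraMap W (Kbar p) w`):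
  `tauΩ hfixΩ s : Kbar p →ₐ[W] Kbar p`, `S.rho hfixΩ L : ↥(Ip p) →* (O L ≃ₐ[W] O L)` (`= rhoE`),
  `S.rho_muP`, `S.rho_tr`, `S.toΩ_rho`, `S.rhoFam` (the same on `(S.levelFamily hdvr).O L`),
  `S.rhoFam_muP`, `S.rhoHom`, `smulU s`, `coe_smulU`: all the arguments of `Union81.ιΩ_semi` with
  `σ = id`, and `S.ιΩ_smul` : the resulting equivariance of the toric map on the union;
* `Lev p E₀` : the finite normal extensions of `ℚ_p` inside `Kbar p` containing `E₀`, a directed
  nonempty preorder, and `levSys p hW : LevelSys p W (Lev p E₀)`.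
-/
import Mathlib
import Fermat.Agent.TW.B5.IfaceLG
import Fermat.Agent.T1B.Union81.Family
import Fermat.Agent.T1B.GalInput65.Conc

set_option autoImplicit false
set_option linter.unusedSectionVars false
set_option linter.overlappingInstances false
set_option linter.style.haveILetI false

noncomputable section

namespace Fermat.Agent.T1B.GalInput65

open Fermat.Agent.TW.B5.Iface Fermat.Agent.TW.B5.IfaceLG Fermat.Agent.T1.LocModel46
  Fermat.Agent.T1B.Plumb66 Fermat.Agent.T1.CechFormal70 Fermat.Agent.T1B.Toric11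
  Fermat.Agent.T1B.ToricGal65 Fermat.Agent.T1B.Union81

variable (p : ℕ) [Fact p.Prime]

/-! ### The levels -/

/-- **The levels**: finite normal extensions of `ℚ_p` inside `Kbar p` containing `E₀`. -/
def Lev (E₀ : IntermediateField ℚ_[p] (Kbar p)) : Type :=
  {E : IntermediateField ℚ_[p] (Kbar p) //
    E₀ ≤ E ∧ FiniteDimensional ℚ_[p] E ∧ IsNormalField p E}

variable {p} {E₀ : IntermediateField ℚ_[p] (Kbar p)}

/-- The field of a level. -/
def Lev.field (L : Lev p E₀) : IntermediateField ℚ_[p] (Kbar p) := L.1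

theorem Lev.base_le (L : Lev p E₀) : E₀ ≤ L.field := L.2.1

theorem Lev.finite (L : Lev p E₀) : FiniteDimensional ℚ_[p] L.field := L.2.2.1

theorem Lev.normal (L : Lev p E₀) : IsNormalField p L.field := L.2.2.2

theorem Lev.stable (L : Lev p E₀) : StableE p L.field := stableE_of_forall p L.normal

instance : Preorder (Lev p E₀) := Preorder.lift Lev.field

theorem Lev.le_iff {L L' : Lev p E₀} : L ≤ L' ↔ L.field ≤ L'.field := Iff.rfl

/-- A level from a finite normal field containing `E₀`. -/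
def Lev.mk' (E : IntermediateField ℚ_[p] (Kbar p)) (h0 : E₀ ≤ E)
    (hfin : FiniteDimensional ℚ_[p] E) (hn : IsNormalField p E) : Lev p E₀ := ⟨E, h0, hfin, hn⟩

@[simp] theorem Lev.field_mk' (E : IntermediateField ℚ_[p] (Kbar p)) (h0 : E₀ ≤ E)
    (hfin : FiniteDimensional ℚ_[p] E) (hn : IsNormalField p E) :
    (Lev.mk' E h0 hfin hn).field = E := rfl

/-- Every finite family of elements of `Kbar p` lies in a level above a given one. -/
theorem Lev.exists_ge (L : Lev p E₀) {ι : Type*} [Finite ι] (z : ι → Kbar p) :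
    ∃ L' : Lev p E₀, L ≤ L' ∧ ∀ i, z i ∈ L'.field := by
  haveI := L.finite
  obtain ⟨E', h1, h2, h3, h4⟩ := exists_level (p := p) L.field z
  exact ⟨Lev.mk' E' (le_trans L.base_le h1) h2 h3, Lev.le_iff.2 h1, h4⟩

instance : IsDirected (Lev p E₀) (· ≤ ·) := by
  refine ⟨fun L L' => ?_⟩
  haveI := L.finite
  haveI := L'.finite
  haveI : FiniteDimensional ℚ_[p] ↥(L.field ⊔ L'.field) :=
    IntermediateField.finiteDimensional_sup _ _
  obtain ⟨E', h1, h2, h3⟩ :=
    Fermat.Agent.TW.B5.FixedField47.exists_normal_finite_ge (p := p) (L.field ⊔ L'.field)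
  exact ⟨Lev.mk' E' (le_trans L.base_le (le_trans le_sup_left h1)) h2 h3,
    Lev.le_iff.2 (le_trans le_sup_left h1), Lev.le_iff.2 (le_trans le_sup_right h1)⟩

theorem Lev.nonempty [FiniteDimensional ℚ_[p] E₀] : Nonempty (Lev p E₀) := by
  obtain ⟨E', h1, h2, h3⟩ :=
    Fermat.Agent.TW.B5.FixedField47.exists_normal_finite_ge (p := p) E₀
  exact ⟨Lev.mk' E' h1 h2 h3⟩

/-! ### Systems of levels -/

/-- **A system of levels**: a preorder `Λ` of finite, inertia-stable extensions of `ℚ_p` inside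
`Kbar p` whose rings of integers contain the image of `W`, and which exhaust `Kbar p`. -/
structure LevelSys (p : ℕ) [Fact p.Prime] (W : Type) [CommRing W] [Algebra W (Kbar p)]
    (Λ : Type*) [Preorder Λ] where
  fld : Λ → IntermediateField ℚ_[p] (Kbar p)
  mono : ∀ {L L' : Λ}, L ≤ L' → fld L ≤ fld L'
  fin : ∀ L, FiniteDimensional ℚ_[p] (fld L)
  stable : ∀ L, StableE p (fld L)
  memW : ∀ (L : Λ) (w : W), algebraMap W (Kbar p) w ∈ intSubring p (fld L)
  exists_ge : ∀ (L : Λ) (z : Kbar p), ∃ L' : Λ, L ≤ L' ∧ z ∈ fld L'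

section Sys

variable {W : Type} [CommRing W] [Algebra W (Kbar p)] {Λ : Type*} [Preorder Λ]
  (S : LevelSys p W Λ)

/-- The ring of integers of a level. -/
abbrev LevelSys.O (L : Λ) : Type := ↥(intSubring p (S.fld L))

/-- **The `W`-algebra structure of `O_L`.** -/
@[reducible] def LevelSys.alg (L : Λ) : Algebra W (S.O L) :=
  ((algebraMap W (Kbar p)).codRestrict (intSubring p (S.fld L)) (S.memW L)).toAlgebra

theorem LevelSys.coe_algebraMap (L : Λ) (w : W) :
    letI := S.alg L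
    ((algebraMap W (S.O L) w : S.O L) : Kbar p) = algebraMap W (Kbar p) w := rfl

/-- The inclusion `O_L → Kbar p` as a `W`-algebra map. -/
def LevelSys.toΩ (L : Λ) :
    letI := S.alg L
    S.O L →ₐ[W] Kbar p :=
  letI := S.alg L
  { (intSubring p (S.fld L)).subtype with commutes' := fun _ => rfl }

@[simp] theorem LevelSys.toΩ_apply (L : Λ) (x : S.O L) :
    letI := S.alg L
    S.toΩ L x = (x : Kbar p) := rfl

/-- The inclusion `O_L → O_L'` as a `W`-algebra map. -/
def LevelSys.tr {L L' : Λ} (h : L ≤ L') :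
    letI := S.alg L
    letI := S.alg L'
    S.O L →ₐ[W] S.O L' :=
  letI := S.alg L
  letI := S.alg L'
  { Fermat.Agent.T1.IntSub47.incl p (S.mono h) with commutes' := fun _ => Subtype.ext rfl }

@[simp] theorem LevelSys.coe_tr {L L' : Λ} (h : L ≤ L') (x : S.O L) :
    ((S.tr h x : S.O L') : Kbar p) = (x : Kbar p) := rfl

variable (hdvr : ∀ E : IntermediateField ℚ_[p] (Kbar p), FiniteDimensional ℚ_[p] E →
  IsDiscreteValuationRing ↥(intSubring p E))

/-- **The level family** of `Union81/Family.lean` attached to a system of levels. -/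
def LevelSys.levelFamily : LevelFamily W (Kbar p) Λ where
  O := fun L => S.O L
  ring := fun _ => inferInstance
  dom := fun _ => inferInstance
  dvr := fun L => hdvr (S.fld L) (S.fin L)
  alg := fun L => S.alg L
  toΩ := fun L => S.toΩ L
  toΩ_inj := fun _ => Subtype.val_injective
  tr := fun h => S.tr h
  tr_local := fun {L L'} h => by
    letI := S.alg L
    letI := S.alg L'
    haveI : IsLocalRing (S.O L) := (hdvr (S.fld L) (S.fin L)).toIsLocalRing
    haveI : IsLocalRing (S.O L') := (hdvr (S.fld L') (S.fin L')).toIsLocalRing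
    exact isLocalHom_of_coe (S.fld L) (S.fld L') _ (fun x => S.coe_tr h x)
  toΩ_tr := fun _ _ => rfl

@[simp] theorem LevelSys.levelFamily_O (L : Λ) : (S.levelFamily hdvr).O L = S.O L := rfl

theorem LevelSys.levelFamily_alg (L : Λ) : (S.levelFamily hdvr).alg L = S.alg L := rfl

theorem LevelSys.levelFamily_toΩ_apply (L : Λ) (x : S.O L) :
    (S.levelFamily hdvr).toΩ L x = (x : Kbar p) := rfl

theorem LevelSys.coe_unitΩ (L : Λ)
    (x : unitsOne (IsLocalRing.maximalIdeal ((S.levelFamily hdvr).O L))) :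
    (((S.levelFamily hdvr).unitΩ L x : (Kbar p)ˣ) : Kbar p) =
      ((Units.val (x : ((S.levelFamily hdvr).O L)ˣ) : S.O L) : Kbar p) := rfl

theorem norm_coe_sub_one_lt (E : IntermediateField ℚ_[p] (Kbar p)) [IsLocalRing ↥(intSubring p E)]
    (x : unitsOne (IsLocalRing.maximalIdeal ↥(intSubring p E))) :
    ‖(((x : (↥(intSubring p E))ˣ) : ↥(intSubring p E)) : Kbar p) - 1‖ < 1 :=
  OneUnits.norm_sub_one p (eOne p E x)

set_option maxHeartbeats 400000 in
/-- **The one-units of `Kbar p` are the union of the one-units of the levels.** -/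
theorem LevelSys.unitsFamily [Nonempty Λ] :
    UnitsFamily (S.levelFamily hdvr) (OneUnits.oneUnits p) where
  mem := fun L x => by
    haveI : IsLocalRing ↥(intSubring p (S.fld L)) := (hdvr (S.fld L) (S.fin L)).toIsLocalRing
    have h := norm_coe_sub_one_lt (S.fld L) x
    rw [OneUnits.mem_oneUnits, S.coe_unitΩ hdvr]
    exact h
  exists_level := fun u hu => by
    obtain ⟨L0⟩ : Nonempty Λ := inferInstance
    obtain ⟨L, -, hL⟩ := S.exists_ge L0 (u : Kbar p)
    haveI : IsLocalRing ↥(intSubring p (S.fld L)) := (hdvr (S.fld L) (S.fin L)).toIsLocalRing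
    obtain ⟨x, hx⟩ := exists_eOne_eq (S.fld L) (⟨u, hu⟩ : ↥(OneUnits.oneUnits p)) hL
    refine ⟨L, x, Units.ext ?_⟩
    rw [S.coe_unitΩ hdvr]
    have h := congrArg (fun z : ↥(OneUnits.oneUnits p) => ((z : (Kbar p)ˣ) : Kbar p)) hx
    exact h

/-! ### Inertia -/

section InertiaLev

variable (hfixΩ : ∀ τ : Gp p, τ ∈ Inertia.Ip p → ∀ w : W,
  τ (algebraMap W (Kbar p) w) = algebraMap W (Kbar p) w)

/-- `s ∈ I_p` as a `W`-algebra endomorphism of `Kbar p`. -/
def tauΩ (s : ↥(Inertia.Ip p)) : Kbar p →ₐ[W] Kbar p :=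
  { (((s : Gp p) : Kbar p ≃+* Kbar p) : Kbar p →+* Kbar p) with
    commutes' := fun w => hfixΩ s s.2 w }

@[simp] theorem tauΩ_apply (s : ↥(Inertia.Ip p)) (x : Kbar p) :
    tauΩ hfixΩ s x = (s : Gp p) x := rfl

include hfixΩ in
theorem LevelSys.hfix (L : Λ) :
    letI := S.alg L
    ∀ (s : ↥(Inertia.Ip p)) (w : W),
      actIp p s ((algebraMap W (S.O L) w : S.O L) : Kbar p) =
        ((algebraMap W (S.O L) w : S.O L) : Kbar p) :=
  fun s w => hfixΩ s s.2 w

/-- **Inertia acting on `O_L` by `W`-algebra automorphisms** (`= rhoE` at the level `L`). -/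
def LevelSys.rho (L : Λ) :
    letI := S.alg L
    ↥(Inertia.Ip p) →* (S.O L ≃ₐ[W] S.O L) :=
  letI := S.alg L
  rhoE p (S.fld L) (S.stable L) (S.hfix hfixΩ L)

@[simp] theorem LevelSys.coe_rho (L : Λ) (s : ↥(Inertia.Ip p)) (x : S.O L) :
    ((S.rho hfixΩ L s x : S.O L) : Kbar p) = (s : Gp p) (x : Kbar p) := rfl

/-- The hypothesis `hχ` of `towerInput` at the level `L`. -/
theorem LevelSys.rho_muP (L : Λ) (s : ↥(Inertia.Ip p)) (ζ : S.O L) (hζ : ζ ^ p = 1) :
    S.rho hfixΩ L s ζ = ζ ^ Cyclo.chiNat p (s : Gp p) :=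
  letI := S.alg L
  rhoE_muP (S.fld L) (S.stable L) (S.hfix hfixΩ L) s ζ hζ

/-- `rho` is compatible with the transition maps. -/
theorem LevelSys.rho_tr {L L' : Λ} (h : L ≤ L') (s : ↥(Inertia.Ip p)) (x : S.O L) :
    S.rho hfixΩ L' s (S.tr h x) = S.tr h (S.rho hfixΩ L s x) :=
  Subtype.ext rfl

/-- `rho` is the restriction of `tauΩ`. -/
theorem LevelSys.toΩ_rho (L : Λ) (s : ↥(Inertia.Ip p)) (x : S.O L) :
    S.toΩ L (S.rho hfixΩ L s x) = tauΩ hfixΩ s (S.toΩ L x) := rfl

/-- `S.rho … L : I_p →* (O_L ≃ₐ[W] O_L)` on the ring of the level family (the `ρ` to feed to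
`Toric50.Master.towerInput_of_base` at the level `L`). -/
def LevelSys.rhoFam (L : Λ) :
    ↥(Inertia.Ip p) →* ((S.levelFamily hdvr).O L ≃ₐ[W] (S.levelFamily hdvr).O L) :=
  S.rho hfixΩ L

theorem LevelSys.rhoFam_muP (L : Λ) (s : ↥(Inertia.Ip p)) (ζ : (S.levelFamily hdvr).O L)
    (hζ : ζ ^ p = 1) : S.rhoFam hdvr hfixΩ L s ζ = ζ ^ Cyclo.chiNat p (s : Gp p) :=
  S.rho_muP hfixΩ L s ζ hζ

/-- `rhoFam … L s` as a `W`-algebra endomorphism of the ring of the level family. -/
def LevelSys.rhoHom (L : Λ) (s : ↥(Inertia.Ip p)) :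
    (S.levelFamily hdvr).O L →ₐ[W] (S.levelFamily hdvr).O L :=
  ((S.rhoFam hdvr hfixΩ L s : (S.levelFamily hdvr).O L ≃ₐ[W] (S.levelFamily hdvr).O L) :
    (S.levelFamily hdvr).O L →ₐ[W] (S.levelFamily hdvr).O L)

theorem LevelSys.rhoHom_local (L : Λ) (s : ↥(Inertia.Ip p)) :
    IsLocalHom ((S.rhoHom hdvr hfixΩ L s :
      (S.levelFamily hdvr).O L →ₐ[W] (S.levelFamily hdvr).O L) :
      (S.levelFamily hdvr).O L →+* (S.levelFamily hdvr).O L) :=
  isLocalHom_algEquiv (S.rhoFam hdvr hfixΩ L s)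

theorem LevelSys.toΩ_rhoHom (L : Λ) (s : ↥(Inertia.Ip p)) (x : (S.levelFamily hdvr).O L) :
    (S.levelFamily hdvr).toΩ L (S.rhoHom hdvr hfixΩ L s x) =
      tauΩ hfixΩ s ((S.levelFamily hdvr).toΩ L x) := rfl

/-- The action of `s ∈ I_p` on the one-units of `Kbar p`. -/
def smulU (s : ↥(Inertia.Ip p)) (u : ↥(OneUnits.oneUnits p)) : ↥(OneUnits.oneUnits p) :=
  (s : Gp p) • u

theorem coe_smulU (s : ↥(Inertia.Ip p)) (u : ↥(OneUnits.oneUnits p)) :
    ((smulU s u : ↥(OneUnits.oneUnits p)) : (Kbar p)ˣ) =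
      Units.map (((tauΩ hfixΩ s : Kbar p →ₐ[W] Kbar p) : Kbar p →+* Kbar p) : Kbar p →* Kbar p)
        (u : (Kbar p)ˣ) :=
  Units.ext rfl

end InertiaLev

end Sys

/-! ### Equivariance of the toric map on the union -/

section Equivariance

open Fermat.Agent.Jac Fermat.Agent.Jac.BaseChange75 Fermat.Agent.T1.RedIface75
  Fermat.Agent.T1B.Toric50.Assemble

variable {W : Type} [CommRing W] [Algebra W (Kbar p)] {Λ : Type*} [Preorder Λ]
  [IsDirected Λ (· ≤ ·)] [Nonempty Λ] (S : LevelSys p W Λ)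
  (hdvr : ∀ E : IntermediateField ℚ_[p] (Kbar p), FiniteDimensional ℚ_[p] E →
    IsDiscreteValuationRing ↥(intSubring p E))
  (hfixΩ : ∀ τ : Gp p, τ ∈ Inertia.Ip p → ∀ w : W,
    τ (algebraMap W (Kbar p) w) = algebraMap W (Kbar p) w)
  {B0 B1 B01 : Type} [CommRing B0] [CommRing B1] [CommRing B01]
  [Algebra W B0] [Algebra W B1] [Algebra W B01] [Algebra B0 B01] [Algebra B1 B01]
  [IsScalarTower W B0 B01] [IsScalarTower W B1 B01]
  {c0 : TwoChart W B0 B1 B01} {g : ℕ} {D : CechData W B0 B1 B01 g}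
  {hρ0 : ∀ x, D.ρ0 x = algebraMap B0 B01 x} {hρ1 : ∀ x, D.ρ1 x = algebraMap B1 B01 x}
  {G : Λ → Type} [∀ L, Group (G L)] {q r : ℕ} {Bt : Λ → ℕ → Type}
  [∀ L n, CommGroup (Bt L n)]
  [∀ L, MulDistribMulAction (G L) (J1 c0 ((S.levelFamily hdvr).O L))]
  [∀ L n, MulDistribMulAction (G L)
    (Jn D (IsLocalRing.maximalIdeal ((S.levelFamily hdvr).O L)) n)]
  [∀ L n, MulDistribMulAction (G L)
    (Tn r (IsLocalRing.maximalIdeal ((S.levelFamily hdvr).O L)) n)]
  [∀ L, MulDistribMulAction (G L) (Tinf r (IsLocalRing.maximalIdeal ((S.levelFamily hdvr).O L)))]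
  (I : ∀ L, TowerInput c0 D hρ0 hρ1 ((S.levelFamily hdvr).O L) (G L) q r (Bt L))
  {good : ∀ (O : Type) [CommRing O] [IsDomain O] [IsDiscreteValuationRing O] [Algebra W O], Prop}
  (F : TorFam r D good) (hO : ∀ L, good ((S.levelFamily hdvr).O L))
  (hI : ∀ L n, (I L).ι n = F.ι ((S.levelFamily hdvr).O L) (hO L) n)

/-- **The toric map on the union is inertia-equivariant**: `ιΩ (s • z) = (τ_s)_* (ιΩ z)`, where
`τ_s = tauΩ hfixΩ s` acts on `Pic X_{ℚ̄_p}` by functoriality (`ToricGal65.mapAlg`). -/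
theorem LevelSys.ιΩ_smul (s : ↥(Inertia.Ip p)) (z : Fin r → ↥(OneUnits.oneUnits p)) :
    ιΩ (S.levelFamily hdvr) (S.unitsFamily hdvr) I F hO hI (fun k => (s : Gp p) • z k) =
      mapAlg c0 (tauΩ hfixΩ s)
        (ιΩ (S.levelFamily hdvr) (S.unitsFamily hdvr) I F hO hI z) :=
  ιΩ_semi (S.levelFamily hdvr) (S.unitsFamily hdvr) I F hO hI (tauΩ hfixΩ s) id
    (fun L => S.rhoHom hdvr hfixΩ L s)
    (fun L => S.rhoHom_local hdvr hfixΩ L s)
    (fun L x => S.toΩ_rhoHom hdvr hfixΩ L s x)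
    (smulU s) (fun u => coe_smulU hfixΩ s u) z

end Equivariance

/-! ### The system of levels `Lev p E₀` -/

section LevSys

variable {W : Type} [CommRing W] [Algebra W (Kbar p)]
  (hW : ∀ w : W, algebraMap W (Kbar p) w ∈ intSubring p E₀)

variable (p) in
/-- The system of all finite normal levels above `E₀ ⊇ W`. -/
def levSys : LevelSys p W (Lev p E₀) where
  fld := Lev.field
  mono := fun h => Lev.le_iff.1 h
  fin := Lev.finite
  stable := Lev.stable
  memW := fun L w => Fermat.Agent.T1.IntSub47.intSubring_mono p L.base_le (hW w)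
  exists_ge := fun L z => by
    obtain ⟨L', h1, h2⟩ := L.exists_ge (fun _ : Unit => z)
    exact ⟨L', h1, h2 ()⟩

instance [FiniteDimensional ℚ_[p] E₀] : Nonempty (Lev p E₀) := Lev.nonempty

end LevSys

end Fermat.Agent.T1B.GalInput65
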