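/-
Programme T1B (row 38 via S44), sub-cell TORIC50, brick GAL-INPUT (helper65), part 4:
THE LEVEL FAMILY ON helper66's NORMAL LEVELS `Local66.Union.NLevel p K`.

`W = Wb p K = A ∩ K`, `Kbar p` a `W`-algebra through `LocalBase.algWKbar p K` (a LOCAL instance in this
file), levels `E : NLevel p K` (v2 of `Local66/Union.lean`: indexed by number fields `L ⊇ K`,
`E.E = ℚ_p(ι L)`), `O_E = ↥(intSubring p E.E)` with the `W`-algebra structure
`LocalBase.algWO E.lev`.

* `Preorder (NLevel p K)` (extending helper66's `LE`), `IsDirected`, `Nonempty` (`K` a number field);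
* `nlevelSys p K : LevelSys p (Wb p K) (NLevel p K)`;
* `levelFamilyN p K : Union81.LevelFamily (Wb p K) (Kbar p) (NLevel p K)` with
  `levelFamilyN_alg : (levelFamilyN p K).alg E = algWO E.lev` (rfl), `levelFamilyN_O` (rfl),
  `unitsFamilyN p K : UnitsFamily (levelFamilyN p K) (OneUnits.oneUnits p)`;
* `hfixN hK` : inertia fixes the image of `W` (`K` inertially fixed);
* `rhoN hK E : ↥(Ip p) →* (O_E ≃ₐ[W] O_E)` (the `ρ` for `towerInput` at the level `E`), `coe_rhoN`,
  `rhoN_muP` (`= hχ`), `rhoN_galO` (`rhoN hK E s x = LocalBase.galO E.nor ↑s x`)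
  [the `rfl`-lemmas `levelFamilyN_coe_tr`, `rhoN_tr` of the v1 file are dropped: kernel-heavy on v2];
* `bcO_eq_mapAlg` : helper66's `bcO c0 E` is `ToricGal65.mapAlg c0 ((levelFamilyN p K).toΩ E)`, so that
  `Union81.ιΩ_e` / `ιΩ_mem` speak about `bcO`;
* `ιΩ_smulN` : the inertia-equivariance of the toric map on the union, on these levels.
-/
import Mathlib
import Fermat.Agent.T1B.Local66.Union
import Fermat.Agent.T1B.Union81.IntSubDVR
import Fermat.Agent.T1B.GalInput65.Level

set_option autoImplicit false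
set_option linter.unusedSectionVars false
set_option linter.overlappingInstances false
set_option linter.style.haveILetI false

noncomputable section

namespace Fermat.Agent.T1B.GalInput65

open Fermat.Agent.TW.B5.Iface Fermat.Agent.RED.Interface4 Fermat.Agent.T1.HubInst98
  Fermat.Agent.T1.LocModel46 Fermat.Agent.T1B.Plumb66 Fermat.Agent.T1.CechFormal70
  Fermat.Agent.T1B.Toric11 Fermat.Agent.T1B.ToricGal65 Fermat.Agent.T1B.Union81
  Fermat.Agent.T1B.Local66.LocalBase Fermat.Agent.T1B.Local66.Union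

variable {p : ℕ} [Fact p.Prime] {K : IntermediateField ℚ Qbar}

/-! ### The order on the normal levels -/

instance : Preorder (NLevel p K) where
  toLE := inferInstance
  lt := fun a b => a ≤ b ∧ ¬ b ≤ a
  le_refl := NLevel.le_refl
  le_trans := fun _ _ _ => NLevel.le_trans
  lt_iff_le_not_ge := fun _ _ => Iff.rfl

instance : IsDirected (NLevel p K) (· ≤ ·) :=
  ⟨fun E E' => ⟨E.sup E', E.le_sup_left E', E.le_sup_right E'⟩⟩

instance [FiniteDimensional ℚ K] : Nonempty (NLevel p K) := NLevel.nonempty p K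

/-! ### The system of levels -/

attribute [local instance] algWKbar

theorem algebraMap_W_Kbar (w : Wb p K) : algebraMap (Wb p K) (Kbar p) w = iotaW p K w := rfl

variable (p K) in
/-- helper66's normal levels as a system of levels. -/
def nlevelSys : LevelSys p (Wb p K) (NLevel p K) where
  fld := NLevel.E
  mono := fun h => NLevel.E_le h
  fin := NLevel.fin
  stable := fun E => stableE_of_forall p E.nor
  memW := fun E w => ⟨E.lev (w : ↥K), norm_iotaW_le_one p K w⟩
  exists_ge := fun E z => E.exists_mem z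

theorem hdvrN : ∀ E : IntermediateField ℚ_[p] (Kbar p), FiniteDimensional ℚ_[p] E →
    IsDiscreteValuationRing ↥(intSubring p E) :=
  fun E _ => isDVR_O E

variable (p K) in
/-- **The level family on the normal levels.** -/
abbrev levelFamilyN : LevelFamily (Wb p K) (Kbar p) (NLevel p K) :=
  (nlevelSys p K).levelFamily hdvrN

theorem levelFamilyN_O (E : NLevel p K) : (levelFamilyN p K).O E = ↥(intSubring p E.E) := rfl

theorem levelFamilyN_alg (E : NLevel p K) : (levelFamilyN p K).alg E = algWO E.lev := rfl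

theorem levelFamilyN_toΩ_apply (E : NLevel p K) (x : ↥(intSubring p E.E)) :
    (levelFamilyN p K).toΩ E x = (x : Kbar p) := rfl

variable (p K) in
/-- **The one-units of `Kbar p` are the union of the one-units of the normal levels.** -/
theorem unitsFamilyN [FiniteDimensional ℚ K] :
    UnitsFamily (levelFamilyN p K) (OneUnits.oneUnits p) :=
  (nlevelSys p K).unitsFamily hdvrN

/-! ### Inertia -/

section Inertia

variable (hK : Fermat.Agent.ES.P36.InertField27.InertFixed (padicPlace p) K)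

include hK in
/-- Inertia fixes the image of `W` in `Kbar p`. -/
theorem hfixN : ∀ τ : Gp p, τ ∈ Inertia.Ip p → ∀ w : Wb p K,
    τ (algebraMap (Wb p K) (Kbar p) w) = algebraMap (Wb p K) (Kbar p) w :=
  fun τ hτ w => inertia_iotaW p K hK ⟨τ, hτ⟩ w

/-- **Inertia acting on `O_E` by `W`-algebra automorphisms**, `E` a normal level: the `ρ` of
`Toric50.Master.towerInput_of_base` at the level `E`. -/
def rhoN (E : NLevel p K) :
    ↥(Inertia.Ip p) →* ((levelFamilyN p K).O E ≃ₐ[Wb p K] (levelFamilyN p K).O E) :=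
  (nlevelSys p K).rhoFam hdvrN (hfixN hK) E

@[simp] theorem coe_rhoN (E : NLevel p K) (s : ↥(Inertia.Ip p)) (x : ↥(intSubring p E.E)) :
    Subtype.val (rhoN hK E s x) = (s : Gp p) (x : Kbar p) := rfl

/-- The hypothesis `hχ` of `towerInput` at the level `E`, with `χ s := Cyclo.chiNat p ↑s`. -/
theorem rhoN_muP (E : NLevel p K) (s : ↥(Inertia.Ip p)) (ζ : (levelFamilyN p K).O E)
    (hζ : ζ ^ p = 1) : rhoN hK E s ζ = ζ ^ Cyclo.chiNat p (s : Gp p) :=
  (nlevelSys p K).rhoFam_muP hdvrN (hfixN hK) E s ζ hζ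

/-- `rhoN` is helper66's `galO`. -/
theorem rhoN_galO (E : NLevel p K) (s : ↥(Inertia.Ip p)) (x : ↥(intSubring p E.E)) :
    rhoN hK E s x = galO E.nor (s : Gp p) x :=
  Subtype.ext rfl

end Inertia

/-! ### The Picard groups -/

section Pic

open Fermat.Agent.Jac Fermat.Agent.T1.RedIface75

variable {B0 B1 B01 : Type} [CommRing B0] [CommRing B1] [CommRing B01]
  [Algebra (Wb p K) B0] [Algebra (Wb p K) B1] [Algebra (Wb p K) B01] [Algebra B0 B01]
  [Algebra B1 B01] [IsScalarTower (Wb p K) B0 B01] [IsScalarTower (Wb p K) B1 B01]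
  (c0 : TwoChart (Wb p K) B0 B1 B01)

/-- **helper66's `bcO c0 E : Pic X_{O_E} →* Pic X_{ℚ̄_p}` is `mapAlg` along `toΩ E`.** -/
theorem bcO_eq_mapAlg (E : NLevel p K) :
    bcO c0 E = mapAlg c0 ((levelFamilyN p K).toΩ E) :=
  (@mapAlg_eq_map _ _ _ _ _ _ _ _ _ _ _ _ _ _ _ c0 ↥(intSubring p E.E) (Kbar p) _ _
    (algWO E.lev) (algWKbar p K) (algOKbar E.E) (tower_W_O_Kbar E.lev)
    ((levelFamilyN p K).toΩ E) (fun _ => rfl)).symm

/-- **helper66's `bcOO c0 h : Pic X_{O_E} →* Pic X_{O_E'}` is `mapAlg` along `tr h`.** -/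
theorem bcOO_eq_mapAlg {E E' : NLevel p K} (h : E ≤ E') :
    bcOO c0 h = mapAlg c0 ((levelFamilyN p K).tr h) :=
  (@mapAlg_eq_map _ _ _ _ _ _ _ _ _ _ _ _ _ _ _ c0 ↥(intSubring p E.E) ↥(intSubring p E'.E) _ _
    (algWO E.lev) (algWO E'.lev) (algOO (p := p) (NLevel.E_le h))
    (tower_W_O_O E.lev (NLevel.E_le h))
    ((levelFamilyN p K).tr h) (fun _ => rfl)).symm

end Pic

end Fermat.Agent.T1B.GalInput65
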