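/-
Programme T1B (row 38 via S44), sub-cell TORIC50, brick GAL-INPUT (helper65), part 5:
MATCHING THE TWO DESCRIPTIONS OF THE INERTIA ACTION ON THE PICARD GROUPS.

helper54 (`Bridge54/IpInst.lean`) defines the action of `I_p` on `A = Additive (Pic X_{ℚ̄_p})`
(`actTop c0 hK`, the `actA` of `Local66.Assembly.LocalGeom`) and on `Pic X_{O_E}` (`gO`) through
`PicX.mapSemi` with the identity chart automorphism; the toric package (`ToricGal65`, `Toric50`,
`Union81`) uses `mapAlg c0 f = PicX.map` along a `W`-algebra homomorphism.  They agree: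

* `mapAlg_eq_mapSemi` : `mapAlg c0 f x = PicX.mapSemi (idChartAut c0) ↑f hf x` for `f : A →ₐ[W] A'`;
* `gTop_eq_mapAlg` : `gTop c0 hK τ x = mapAlg c0 (tauΩ (hfixN hK) τ) x`;
* `gO_eq_picMapG` : `gO c0 E hK τ x = ToricGal65.picMapG c0 (rhoN hK E) τ x` (the action underlying
  `ToricGal65.j1Act c0 (rhoN hK E)` used by `Toric50.Master.towerInput_of_base`);
* **`ιΩ_smul_actTop`** : the field `ιT_smul` of `LocalGeom` for `ιT z := ofMul (ιΩ … z)` on helper66's
  normal levels: `ofMul (ιΩ (fun e => ↑τ • z e)) = τ • ofMul (ιΩ z)` for the action `actTop c0 hK`;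
* `ιΩ_mul_ofMul` : the field `ιT_mul`.
-/
import Mathlib
import Fermat.Agent.T1.Red20.BcSemiComp
import Fermat.Agent.T1B.Bridge54.IpInst
import Fermat.Agent.T1B.GalInput65.NLev

set_option autoImplicit false
set_option linter.unusedSectionVars false
set_option linter.overlappingInstances false
set_option linter.style.haveILetI false

noncomputable section

namespace Fermat.Agent.T1B.GalInput65

open Fermat.Agent.TW.B5.Iface Fermat.Agent.RED.Interface4 Fermat.Agent.T1.HubInst98
  Fermat.Agent.T1.LocModel46 Fermat.Agent.T1B.Plumb66 Fermat.Agent.T1.CechFormal70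
  Fermat.Agent.T1B.Toric11 Fermat.Agent.T1B.ToricGal65 Fermat.Agent.T1B.Union81
  Fermat.Agent.T1B.Local66.LocalBase Fermat.Agent.T1B.Local66.Union
  Fermat.Agent.Jac Fermat.Agent.T1.RedIface75
  Fermat.Agent.T1B.Bridge54.IpAction Fermat.Agent.T1B.Bridge54.IpInst

/-! ### `mapAlg` is `mapSemi` with the identity chart automorphism -/

section General

universe u

variable {W B0 B1 B01 : Type u} [CommRing W] [CommRing B0] [CommRing B1] [CommRing B01]
  [Algebra W B0] [Algebra W B1] [Algebra W B01] [Algebra B0 B01] [Algebra B1 B01]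
  [IsScalarTower W B0 B01] [IsScalarTower W B1 B01] (c0 : TwoChart W B0 B1 B01)
  {A A' : Type u} [CommRing A] [CommRing A'] [Algebra W A] [Algebra W A']

/-- A `W`-algebra homomorphism is semilinear over the identity chart automorphism. -/
theorem algHom_semi_id (f : A →ₐ[W] A') (w : W) (a : A) :
    (f : A →+* A') (w • a) = (idChartAut c0).σW w • (f : A →+* A') a :=
  map_smul f w a

/-- **`mapAlg c0 f` is the semilinear base change along `f` over the identity chart
automorphism.** -/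
theorem mapAlg_eq_mapSemi (f : A →ₐ[W] A')
    (hf : ∀ (w : W) (a : A), (f : A →+* A') (w • a) = (idChartAut c0).σW w • (f : A →+* A') a)
    (x : PicX c0 A) :
    mapAlg c0 f x = PicX.mapSemi (idChartAut c0) (f : A →+* A') hf x := by
  letI : Algebra A A' := f.toRingHom.toAlgebra
  haveI : IsScalarTower W A A' := tower_of_algHom f
  have hid : ∀ (w : W) (a : A),
      RingHom.id A (w • a) = (idChartAut c0).σW w • RingHom.id A a := fun _ _ => rfl
  have hg : ∀ (w : W) (a : A), ((algebraMap A A').comp (RingHom.id A)) (w • a) =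
      (idChartAut c0).σW w • ((algebraMap A A').comp (RingHom.id A)) a := fun w a => hf w a
  have h1 := Fermat.Agent.T1.Red20.BcSquare.PicX.map_mapSemi_eq (idChartAut c0) (RingHom.id A) hid hg x
  rw [Fermat.Agent.T1.Red20.BcSemiComp.PicX.mapSemi_id (idChartAut c0) rfl rfl rfl hid x] at h1
  show PicX.map c0 A A' x = _
  rw [h1]
  exact Fermat.Agent.T1.Red20.BcSquare.PicX.mapSemi_congr (idChartAut c0) (RingHom.comp_id _) hg hf x

end General

/-! ### The concrete actions -/

section Concrete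

variable {p : ℕ} [Fact p.Prime] {K : IntermediateField ℚ Qbar}

attribute [local instance] algWKbar

variable {B0 B1 B01 : Type} [CommRing B0] [CommRing B1] [CommRing B01]
  [Algebra (Wb p K) B0] [Algebra (Wb p K) B1] [Algebra (Wb p K) B01] [Algebra B0 B01]
  [Algebra B1 B01] [IsScalarTower (Wb p K) B0 B01] [IsScalarTower (Wb p K) B1 B01]
  (c0 : TwoChart (Wb p K) B0 B1 B01)
  (hK : Fermat.Agent.ES.P36.InertField27.InertFixed (padicPlace p) K)

/-- **helper54's action of `τ ∈ I_p` on `Pic X_{ℚ̄_p}` is `mapAlg` along `τ`.** -/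
theorem gTop_eq_mapAlg (τ : ↥(Inertia.Ip p)) (x : PicTop p K c0) :
    gTop c0 hK τ x = mapAlg c0 (tauΩ (hfixN hK) τ) x := by
  rw [mapAlg_eq_mapSemi c0 (tauΩ (hfixN hK) τ) (gal_semi c0 hK τ) x]
  rfl

/-- **helper54's action of `τ ∈ I_p` on `Pic X_{O_E}` is `ToricGal65.picMapG c0 (rhoN hK E) τ`.** -/
theorem gO_eq_picMapG (E : NLevel p K) (τ : ↥(Inertia.Ip p)) (x : PicO c0 E) :
    gO c0 E hK τ x = picMapG c0 (rhoN hK E) τ x := by
  letI := algWO E.lev
  unfold picMapG
  rw [mapAlg_eq_mapSemi c0 (rhoHom (rhoN hK E) τ) (galO_semi c0 E hK τ) x]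
  rfl

/-! ### The fields `ιT_mul`, `ιT_smul` of `LocalGeom` -/

section Fields

open Fermat.Agent.T1B.Toric50.Assemble

variable [FiniteDimensional ℚ K] {g : ℕ} {D : CechData (Wb p K) B0 B1 B01 g}
  {hρ0 : ∀ x, D.ρ0 x = algebraMap B0 B01 x} {hρ1 : ∀ x, D.ρ1 x = algebraMap B1 B01 x}
  {G : NLevel p K → Type} [∀ L, Group (G L)] {q r : ℕ} {Bt : NLevel p K → ℕ → Type}
  [∀ L n, CommGroup (Bt L n)]
  [∀ L, MulDistribMulAction (G L) (J1 c0 ((levelFamilyN p K).O L))]
  [∀ L n, MulDistribMulAction (G L)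
    (Jn D (IsLocalRing.maximalIdeal ((levelFamilyN p K).O L)) n)]
  [∀ L n, MulDistribMulAction (G L)
    (Tn r (IsLocalRing.maximalIdeal ((levelFamilyN p K).O L)) n)]
  [∀ L, MulDistribMulAction (G L) (Tinf r (IsLocalRing.maximalIdeal ((levelFamilyN p K).O L)))]
  (I : ∀ L, TowerInput c0 D hρ0 hρ1 ((levelFamilyN p K).O L) (G L) q r (Bt L))
  {good : ∀ (O : Type) [CommRing O] [IsDomain O] [IsDiscreteValuationRing O]
    [Algebra (Wb p K) O], Prop}
  (F : TorFam r D good) (hO : ∀ L, good ((levelFamilyN p K).O L))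
  (hI : ∀ L n, (I L).ι n = F.ι ((levelFamilyN p K).O L) (hO L) n)

variable {c0}

/-- The toric map of `LocalGeom`: `ιT z = ofMul (ιΩ z) ∈ A = Additive (Pic X_{ℚ̄_p})`. -/
def ιTop (z : Fin r → ↥(OneUnits.oneUnits p)) : Atop p K c0 :=
  Additive.ofMul (ιΩ (levelFamilyN p K) (unitsFamilyN p K) I F hO hI z)

/-- The field `ιT_mul` of `LocalGeom`. -/
theorem ιTop_mul (a b : Fin r → ↥(OneUnits.oneUnits p)) :
    ιTop I F hO hI (a * b) = ιTop I F hO hI a + ιTop I F hO hI b := by
  unfold ιTop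
  rw [map_mul]
  rfl

/-- **The field `ιT_smul` of `LocalGeom`**, for helper54's action `actTop c0 hK` on `A`. -/
theorem ιTop_smul (τ : ↥(Inertia.Ip p)) (z : Fin r → ↥(OneUnits.oneUnits p)) :
    letI := actTop c0 hK
    ιTop I F hO hI (fun e => (τ : Gp p) • z e) = τ • ιTop I F hO hI z := by
  letI := actTop c0 hK
  unfold ιTop
  rw [actTop_smul_ofMul, gTop_eq_mapAlg]
  exact congrArg Additive.ofMul
    ((nlevelSys p K).ιΩ_smul hdvrN (hfixN hK) I F hO hI τ z)

/-- `ιTop` on a family of one-units of level `E` is the image under helper66's `bcO c0 E` of the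
toric point of level `E`. -/
theorem ιTop_e (E : NLevel p K)
    (w : Tinf r (IsLocalRing.maximalIdeal ((levelFamilyN p K).O E))) :
    ιTop I F hO hI (eΩ (levelFamilyN p K) (unitsFamilyN p K) E w) =
      Additive.ofMul (bcO c0 E (((I E).toricPoint w : J1 c0 ((levelFamilyN p K).O E)) :
        PicX c0 ((levelFamilyN p K).O E))) := by
  unfold ιTop
  rw [ιΩ_e, bcO_eq_mapAlg]
  rfl

/-- Every value of `ιTop` is the image of a toric point of some level. -/
theorem exists_ιTop_eq (z : Fin r → ↥(OneUnits.oneUnits p)) :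
    ∃ (E : NLevel p K) (w : Tinf r (IsLocalRing.maximalIdeal ((levelFamilyN p K).O E))),
      ιTop I F hO hI z =
        Additive.ofMul (bcO c0 E (((I E).toricPoint w : J1 c0 ((levelFamilyN p K).O E)) :
          PicX c0 ((levelFamilyN p K).O E))) := by
  obtain ⟨E, w, rfl⟩ := eΩ_surj (levelFamilyN p K) (unitsFamilyN p K) (r := r) z
  exact ⟨E, w, ιTop_e I F hO hI E w⟩

end Fields

end Concrete

end Fermat.Agent.T1B.GalInput65
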