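/-
Programme S33 (brick N2-toric) / T1B TORIC50, brick GAL-INPUT (helper65), addendum:
THE `p ^ n`-ANALOGUE OF `rhoE_muP`.

The local Galois group `G_p = Gp p` acts on the `p ^ n`-th roots of unity of `Kbar p` through the
`p`-adic cyclotomic character `ES.J.CycloChar8.cyclo p` of `G_ℚ` (the SAME `χ` as in S33 A2'(c)/N3),
composed with `localGaloisToGlobal p` and reduced modulo `p ^ n`:

* `chiPn p n τ : ℕ := ((cyclo p (res τ) : ℤ_[p]).toZModPow n).val`;
* `apply_root_pn       : ζ ^ p ^ n = 1 → τ ζ = ζ ^ chiPn p n τ`                 (`ζ : Kbar p`);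
* `smul_oneUnits_pn    : u ^ p ^ n = 1 → τ • u = u ^ chiPn p n τ`               (`u : oneUnits p`)
  (= the hypothesis `ha` of `S33P.Geo99.LocalGeomTate.cubic_on_ker` with `a := chiPn p n ↑τ`);
* `rhoE_pow_of_pow`, `rhoE_muPn : ζ ^ p ^ n = 1 → rhoE p E hE hfix s ζ = ζ ^ chiPn p n ↑s`
  (= the hypothesis `hχ` of `Toric50.Tower.TowerInput` at the exponent `p ^ n`, `χ s := chiPn p n ↑s`);
* `LevelSys.rho_muPn`, `LevelSys.rhoFam_muPn`, `rhoN_muPn` : the same for the level systems;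
* arithmetic of the exponent: `chiPn_lt`, `natCast_chiPn`, `chiPn_zero`, `chiPn_mul`, `chiPn_one`,
  `chiPn_succ_modEq` (`chiPn p (n+1) τ ≡ chiPn p n τ [MOD p ^ n]`), `chiPn_modEq_of_le`,
  `chiPn_modEq_chiNat` (`chiPn p 1 τ ≡ Cyclo.chiNat p τ [MOD p]`), `chiPn_coprime`,
  `chiPn_modEq_of_apply` (uniqueness: `τ ζ = ζ ^ a` for all `ζ ∈ μ_{p^n}` ⇒ `chiPn p n τ ≡ a`).
-/
import Mathlib
import Fermat.Agent.ES.J.CycloChar8
import Fermat.Agent.T1B.GalInput65.NLev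

set_option autoImplicit false
set_option linter.unusedSectionVars false
set_option linter.overlappingInstances false
set_option linter.style.haveILetI false

noncomputable section

namespace Fermat.Agent.T1B.GalInput65

open Fermat.Agent.TW.B5.Iface Fermat.Agent.T1.LocModel46 Fermat.Agent.T1B.Plumb66
  Fermat.Agent.ES.J.CycloChar8

variable (p : ℕ) [Fact p.Prime]

/-! ### The exponent -/

/-- The `p`-adic cyclotomic character of `τ ∈ G_p` modulo `p ^ n`, as a natural number `< p ^ n`. -/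
def chiPn (n : ℕ) (τ : Gp p) : ℕ :=
  ((cyclo p (localGaloisToGlobal p τ) : ℤ_[p]).toZModPow n).val

theorem chiPn_def (n : ℕ) (τ : Gp p) :
    chiPn p n τ = ((cyclo p (localGaloisToGlobal p τ) : ℤ_[p]).toZModPow n).val := rfl

local instance neZero_pow_p (n : ℕ) : NeZero (p ^ n) := ⟨pow_ne_zero _ (Fact.out : p.Prime).ne_zero⟩

theorem chiPn_lt (n : ℕ) (τ : Gp p) : chiPn p n τ < p ^ n := ZMod.val_lt _

theorem natCast_chiPn (n : ℕ) (τ : Gp p) :
    ((chiPn p n τ : ℕ) : ZMod (p ^ n)) =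
      (cyclo p (localGaloisToGlobal p τ) : ℤ_[p]).toZModPow n :=
  ZMod.natCast_zmod_val _

/-- `τ ζ = ζ ^ chiPn p n τ` for a `p ^ n`-th root of unity `ζ` of `ℚ̄_p`. -/
theorem apply_root_pn (n : ℕ) (τ : Gp p) {ζ : Kbar p} (hζ : ζ ^ p ^ n = 1) :
    τ ζ = ζ ^ chiPn p n τ := by
  obtain ⟨z, hz, rfl⟩ := Inertia.exists_root_preimage p (NeZero.ne (p ^ n)) hζ
  rw [← iota_res, cyclo_spec p _ z hz, map_pow]
  rfl

/-- There is a primitive `p ^ n`-th root of unity in `ℚ̄_p`. -/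
theorem exists_primitiveRoot_pn (n : ℕ) : ∃ ζ : Kbar p, IsPrimitiveRoot ζ (p ^ n) := by
  obtain ⟨z, hz⟩ := Fermat.Agent.ES.J.CycloChar8.exists_primitiveRoot p n
  exact ⟨padicEmbedding p z, hz.map_of_injective (padicEmbedding p).injective⟩

/-- Uniqueness of the exponent modulo `p ^ n`. -/
theorem chiPn_modEq_of_apply {n : ℕ} {τ : Gp p} {a : ℕ}
    (ha : ∀ ζ : Kbar p, ζ ^ p ^ n = 1 → τ ζ = ζ ^ a) : chiPn p n τ ≡ a [MOD p ^ n] := by
  obtain ⟨ζ, hζ⟩ := exists_primitiveRoot_pn p n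
  have h : ζ ^ chiPn p n τ = ζ ^ a :=
    (apply_root_pn p n τ hζ.pow_eq_one).symm.trans (ha ζ hζ.pow_eq_one)
  have hfin : IsOfFinOrder ζ := by
    rw [← orderOf_pos_iff, ← hζ.eq_orderOf]
    exact Nat.pos_of_ne_zero (NeZero.ne (p ^ n))
  have := hfin.pow_eq_pow_iff_modEq.1 h
  rwa [← hζ.eq_orderOf] at this

theorem chiPn_zero (τ : Gp p) : chiPn p 0 τ = 0 := by
  have h := chiPn_lt p 0 τ
  rw [pow_zero] at h
  omega

theorem chiPn_mul (n : ℕ) (τ τ' : Gp p) :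
    chiPn p n (τ * τ') ≡ chiPn p n τ * chiPn p n τ' [MOD p ^ n] := by
  apply chiPn_modEq_of_apply
  intro ζ hζ
  have h1 : (ζ ^ chiPn p n τ') ^ p ^ n = 1 := by rw [← pow_mul, mul_comm, pow_mul, hζ, one_pow]
  rw [AlgEquiv.mul_apply, apply_root_pn p n τ' hζ, map_pow, apply_root_pn p n τ hζ, ← pow_mul]

theorem chiPn_one (n : ℕ) : chiPn p n (1 : Gp p) ≡ 1 [MOD p ^ n] := by
  apply chiPn_modEq_of_apply
  intro ζ _
  rw [AlgEquiv.one_apply, pow_one]

/-- Compatibility of the levels. -/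
theorem chiPn_modEq_of_le {m n : ℕ} (h : m ≤ n) (τ : Gp p) :
    chiPn p n τ ≡ chiPn p m τ [MOD p ^ m] := by
  refine (chiPn_modEq_of_apply p fun ζ hζ => ?_).symm
  have hζ' : ζ ^ p ^ n = 1 := by
    obtain ⟨k, rfl⟩ := Nat.exists_eq_add_of_le h
    rw [pow_add, pow_mul, hζ, one_pow]
  exact apply_root_pn p n τ hζ'

theorem chiPn_succ_modEq (n : ℕ) (τ : Gp p) : chiPn p (n + 1) τ ≡ chiPn p n τ [MOD p ^ n] :=
  chiPn_modEq_of_le p (Nat.le_succ n) τ

/-- At the first level `chiPn` is the mod `p` cyclotomic character `Cyclo.chiNat`. -/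
theorem chiPn_modEq_chiNat (τ : Gp p) : chiPn p 1 τ ≡ Cyclo.chiNat p τ [MOD p] := by
  have h := chiPn_modEq_of_apply p (n := 1) (τ := τ) (a := Cyclo.chiNat p τ) fun ζ hζ =>
    Cyclo.actsOnMuP p τ ζ (by rwa [pow_one] at hζ)
  rwa [pow_one] at h

/-- `chiPn p n τ ≡ Cyclo.chiNat p τ [MOD p]` for `n ≥ 1`. -/
theorem chiPn_modEq_chiNat_of_pos {n : ℕ} (hn : 1 ≤ n) (τ : Gp p) :
    chiPn p n τ ≡ Cyclo.chiNat p τ [MOD p] := by
  have h := chiPn_modEq_of_le p hn τ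
  rw [pow_one] at h
  exact h.trans (chiPn_modEq_chiNat p τ)

/-- `chiPn p n τ` is prime to `p` for `n ≥ 1`. -/
theorem chiPn_coprime {n : ℕ} (hn : 1 ≤ n) (τ : Gp p) : Nat.Coprime (chiPn p n τ) p := by
  have h := (chiPn_modEq_chiNat_of_pos p hn τ).gcd_eq
  have h2 : Nat.gcd (Cyclo.chiNat p τ) p = 1 := Cyclo.chiNat_coprime p τ
  exact h.trans h2

/-! ### One-units -/

/-- The Galois group acts on `p ^ n`-torsion one-units through `chiPn p n`: the hypothesis `ha` of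
`S33P.Geo99.LocalGeomTate.cubic_on_ker` with `a := chiPn p n τ`. -/
theorem smul_oneUnits_pn (n : ℕ) (τ : Gp p) (u : OneUnits.oneUnits p) (hu : u ^ p ^ n = 1) :
    τ • u = u ^ chiPn p n τ := by
  have hu' : ((u : (Kbar p)ˣ) : Kbar p) ^ p ^ n = 1 := by
    rw [← OneUnits.coe_pow, hu]; rfl
  apply OneUnits.oneUnits.ext p
  rw [OneUnits.coe_smul, OneUnits.coe_pow]
  exact apply_root_pn p n τ hu'

variable {p}

/-! ### `rhoE` -/

section Rho

variable {W : Type*} [CommRing W] (E : IntermediateField ℚ_[p] (Kbar p))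
  [Algebra W ↥(intSubring p E)] (hE : StableE p E)
  (hfix : ∀ (s : ↥(Inertia.Ip p)) (w : W),
    actIp p s ((algebraMap W ↥(intSubring p E) w : ↥(intSubring p E)) : Kbar p) =
      ((algebraMap W ↥(intSubring p E) w : ↥(intSubring p E)) : Kbar p))

/-- If `s ζ = ζ ^ a` in `Kbar p`, the same holds in `O_E`. -/
theorem rhoE_pow_of_pow (s : ↥(Inertia.Ip p)) (ζ : ↥(intSubring p E)) (a : ℕ)
    (h : (s : Gp p) (ζ : Kbar p) = (ζ : Kbar p) ^ a) : rhoE p E hE hfix s ζ = ζ ^ a :=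
  rho_pow_of_pow (actIp p) (intSubring p E) (mem_intSubring_of_stable hE) hfix s ζ a h

/-- **Inertia acts on `μ_{p^n}(O_E)` through the cyclotomic character modulo `p ^ n`**: the
hypothesis `hχ` of `Toric50.Tower.TowerInput` at the exponent `p ^ n`, with `χ s := chiPn p n ↑s`. -/
theorem rhoE_muPn (n : ℕ) (s : ↥(Inertia.Ip p)) (ζ : ↥(intSubring p E)) (hζ : ζ ^ p ^ n = 1) :
    rhoE p E hE hfix s ζ = ζ ^ chiPn p n (s : Gp p) := by
  apply rhoE_pow_of_pow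
  have h1 : ((ζ : ↥(intSubring p E)) : Kbar p) ^ p ^ n = 1 := by
    have := congrArg (fun z : ↥(intSubring p E) => (z : Kbar p)) hζ
    simpa using this
  exact apply_root_pn p n (s : Gp p) h1

end Rho

/-! ### Level systems -/

section Level

variable {W : Type} [CommRing W] [Algebra W (Kbar p)] {Λ : Type*} [Preorder Λ]
  (S : LevelSys p W Λ)
  (hdvr : ∀ E : IntermediateField ℚ_[p] (Kbar p), FiniteDimensional ℚ_[p] E →
    IsDiscreteValuationRing ↥(intSubring p E))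
  (hfixΩ : ∀ τ : Gp p, τ ∈ Inertia.Ip p → ∀ w : W,
    τ (algebraMap W (Kbar p) w) = algebraMap W (Kbar p) w)

theorem LevelSys.rho_muPn (L : Λ) (n : ℕ) (s : ↥(Inertia.Ip p)) (ζ : S.O L)
    (hζ : ζ ^ p ^ n = 1) : S.rho hfixΩ L s ζ = ζ ^ chiPn p n (s : Gp p) :=
  letI := S.alg L
  rhoE_muPn (S.fld L) (S.stable L) (S.hfix hfixΩ L) n s ζ hζ

theorem LevelSys.rhoFam_muPn (L : Λ) (n : ℕ) (s : ↥(Inertia.Ip p))
    (ζ : (S.levelFamily hdvr).O L) (hζ : ζ ^ p ^ n = 1) :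
    S.rhoFam hdvr hfixΩ L s ζ = ζ ^ chiPn p n (s : Gp p) :=
  S.rho_muPn hfixΩ L n s ζ hζ

end Level

/-! ### Normal levels over an inertial number field -/

section NLevel

open Fermat.Agent.T1B.Local66.LocalBase Fermat.Agent.T1B.Local66.Union

attribute [local instance] algWKbar

variable {K : IntermediateField ℚ (AlgebraicClosure ℚ)} [FiniteDimensional ℚ ↥K]
  (hK : Fermat.Agent.ES.P36.InertField27.InertFixed (padicPlace p) K)

/-- The hypothesis `hχ` of `TowerInput` at the level `E` and the exponent `p ^ n`, with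
`χ s := chiPn p n ↑s`. -/
theorem rhoN_muPn (E : NLevel p K) (n : ℕ) (s : ↥(Inertia.Ip p)) (ζ : (levelFamilyN p K).O E)
    (hζ : ζ ^ p ^ n = 1) : rhoN hK E s ζ = ζ ^ chiPn p n (s : Gp p) :=
  (nlevelSys p K).rhoFam_muPn hdvrN (hfixN hK) E n s ζ hζ

end NLevel

end Fermat.Agent.T1B.GalInput65
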